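import Fermat.Agent.Ribet.H943.Row37

/-!
# Row 37 (S43): the HARD case is only needed at MINIMAL conductor levels  (helper727)

`H943.Row37.HardCaseStatement` quantifies over ALL levels `L > 0` with `q ‖ L`.  A patching
proof (route T, Ihara avoidance) of that statement would need local lifting rings for arbitrary
inertial types at the primes `r ∣ L` and arbitrary types at `p` (`p ^ k ∣ L`).  Frozen S43 needs
much less:

* the level is a CONDUCTOR level (squarefree, all primes divide `abc`, so `p ∣ L → p ∣ abc`);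
* the conclusion allows ANY divisor `M` of the level which is prime to `q`;
* every "easy" odd prime `r ≠ p` of the level (one at which Mazur's principle applies) can be
  removed FIRST (the Frey representation is unramified at every odd `r ≠ p`: frozen S05).

So the hard case is only needed at conductor levels `L` ALL of whose odd primes `≠ p` are hard,
and its conclusion may remove more primes than `q`.

## Generic form (any predicate `Easy` for which Mazur's principle is available)
* `MazurPrincipleFor Easy`, `HardCaseMinFor Easy` (Props);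
* `exists_level_without_easy` : removal of all easy primes;
* `S43_of_easyHard : MazurPrincipleFor Easy → HardCaseMinFor Easy → S43`.

## Variant with `p` removed first (frozen S44 = row 38 as an input)
* `HardCaseMinFlatFor Easy` : the same at levels PRIME TO `p` (only the flat condition at `p`);
* `S43_of_easyHardFlat : S44 → MazurPrincipleFor Easy → HardCaseMinFlatFor Easy → S43`.

## Special form `Easy P r := ¬ P.p ∣ r - 1` (what `Spec.MazurPrincipleStatement` gives)
* `OnlyHardPrimes`, `HardCaseMinStatement`;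
* `S43_of_hardMin : MazurPrinciple → S05 → HardCaseMin → S43`;
* `hardCaseMin_of_levelLowering` : the new statement is WEAKER than `Row37.LevelLoweringStatement`.
-/

set_option autoImplicit false

open WeierstrassCurve WeierstrassCurve.Affine WeierstrassCurve.Affine.Point
open CuspForm ModularFormClass UpperHalfPlane

namespace Fermat.Agent.Ribet.H727

open Fermat.Agent.Ribet Fermat.Agent.Ribet.Spec Fermat.Agent.Ribet.H943.Row37

/-! ## Generic form -/

/-- Mazur's principle for the primes singled out by `Easy` (e.g. `Easy P r := ¬ P.p ∣ r - 1`, or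
"`r ≢ 1 mod p` or `ρ̄(Frob_r)` is not scalar"), at conductor levels. -/
def MazurPrincipleFor (Easy : FreyPackage → ℕ → Prop) : Prop :=
  ∀ (P : FreyPackage) {L r : ℕ}, P.IsConductorLevel L → r.Prime → r ≠ 2 → r ≠ P.p → r ∣ L →
    GaloisRepIsIrreducible (K := AlgebraicClosure ℚ) ℚ P.freyCurve P.p →
    P.ModularRepOfLevel L → Easy P r → P.ModularRepOfLevel (L / r)

/-- `L` has no easy odd prime `≠ p`. -/
def NoEasyPrimes (Easy : FreyPackage → ℕ → Prop) (P : FreyPackage) (L : ℕ) : Prop :=
  ∀ r : ℕ, r.Prime → r ∣ L → r ≠ 2 → r ≠ P.p → ¬ Easy P r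

/-- The hard case at conductor levels WITHOUT easy odd primes `≠ p`; conclusion as in frozen
S43 (any divisor of the level prime to `q`). -/
def HardCaseMinFor (Easy : FreyPackage → ℕ → Prop) : Prop :=
  ∀ (P : FreyPackage) {L q : ℕ}, P.IsConductorLevel L → NoEasyPrimes Easy P L →
    q.Prime → q ≠ 2 → q ≠ P.p → q ∣ L →
    GaloisRepIsIrreducible (K := AlgebraicClosure ℚ) ℚ P.freyCurve P.p →
    P.ModularRepOfLevel L →
    ∃ M : ℕ, M ∣ L ∧ ¬ q ∣ M ∧ P.ModularRepOfLevel M

/-- Removal of all easy primes: from a conductor level `N` divisible by the hard prime `q` one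
reaches, by Mazur's principle alone, a conductor level `L ∣ N`, still divisible by `q`, without
easy primes. -/
theorem exists_level_without_easy (Easy : FreyPackage → ℕ → Prop)
    (hMP : MazurPrincipleFor Easy) (P : FreyPackage) {q : ℕ} (hq : q.Prime)
    (hqE : ¬ Easy P q)
    (hirr : GaloisRepIsIrreducible (K := AlgebraicClosure ℚ) ℚ P.freyCurve P.p) :
    ∀ N : ℕ, P.IsConductorLevel N → q ∣ N → P.ModularRepOfLevel N →
      ∃ L : ℕ, L ∣ N ∧ P.IsConductorLevel L ∧ q ∣ L ∧ NoEasyPrimes Easy P L ∧
        P.ModularRepOfLevel L := by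
  intro N
  induction N using Nat.strong_induction_on with
  | _ N ih =>
    intro hcond hqN hmod
    by_cases hall : NoEasyPrimes Easy P N
    · exact ⟨N, dvd_rfl, hcond, hqN, hall, hmod⟩
    · have hall' : ∃ r : ℕ, r.Prime ∧ r ∣ N ∧ r ≠ 2 ∧ r ≠ P.p ∧ Easy P r := by
        by_contra hcon
        apply hall
        intro r hr hrN hr2 hrp hE
        exact hcon ⟨r, hr, hrN, hr2, hrp, hE⟩
      obtain ⟨r, hr, hrN, hr2, hrp, hrE⟩ := hall'
      have hrq : r ≠ q := fun h => hqE (h ▸ hrE)
      have hmod' : P.ModularRepOfLevel (N / r) := hMP P hcond hr hr2 hrp hrN hirr hmod hrE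
      have hdvd : N / r ∣ N := Nat.div_dvd_of_dvd hrN
      have hpos : 0 < N / r := Nat.div_pos (Nat.le_of_dvd hcond.pos hrN) hr.pos
      have hlt : N / r < N := Nat.div_lt_self hcond.pos hr.one_lt
      have hcond' : P.IsConductorLevel (N / r) := hcond.of_dvd hdvd hpos
      have hq' : q ∣ N / r := by
        have h1 : q ∣ r * (N / r) := by rwa [Nat.mul_div_cancel' hrN]
        rcases (Nat.Prime.dvd_mul hq).1 h1 with h | h
        · exact absurd ((Nat.prime_dvd_prime_iff_eq hq hr).1 h).symm hrq
        · exact h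
      obtain ⟨L, hLN, hL, hqL, hLhard, hLmod⟩ := ih (N / r) hlt hcond' hq' hmod'
      exact ⟨L, hLN.trans hdvd, hL, hqL, hLhard, hLmod⟩

/-- **S43 from Mazur's principle for the easy primes and the hard case at levels without easy
primes** (for ANY predicate `Easy`). -/
theorem S43_of_easyHard (Easy : FreyPackage → ℕ → Prop)
    (hMP : MazurPrincipleFor Easy) (hH : HardCaseMinFor Easy) : S43Statement := by
  intro P N q hcond hq hq2 hqp hqN hirr hmod _
  by_cases hqE : Easy P q
  · have hsq : ¬ q ^ 2 ∣ N := hcond.sq_not_dvd hq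
    exact ⟨N / q, Nat.div_dvd_of_dvd hqN, not_dvd_div_of_sq_not_dvd hq hqN hsq,
      hMP P hcond hq hq2 hqp hqN hirr hmod hqE⟩
  · obtain ⟨L, hLN, hL, hqL, hLhard, hLmod⟩ :=
      exists_level_without_easy Easy hMP P hq hqE hirr N hcond hqN hmod
    obtain ⟨M, hML, hqM, hMmod⟩ := hH P hL hLhard hq hq2 hqp hqL hirr hLmod
    exact ⟨M, hML.trans hLN, hqM, hMmod⟩

/-! ## Variant with `p` removed first (uses frozen S44 = row 38) -/

/-- The hard case at conductor levels PRIME TO `p` without easy odd primes: here the only local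
condition needed at `p` is the flat (good reduction) one. -/
def HardCaseMinFlatFor (Easy : FreyPackage → ℕ → Prop) : Prop :=
  ∀ (P : FreyPackage) {L q : ℕ}, P.IsConductorLevel L → ¬ P.p ∣ L → NoEasyPrimes Easy P L →
    q.Prime → q ≠ 2 → q ≠ P.p → q ∣ L →
    GaloisRepIsIrreducible (K := AlgebraicClosure ℚ) ℚ P.freyCurve P.p →
    P.ModularRepOfLevel L →
    ∃ M : ℕ, M ∣ L ∧ ¬ q ∣ M ∧ P.ModularRepOfLevel M

/-- With frozen S44 the hard case is only needed at levels prime to `p`. -/
theorem hardCaseMinFor_of_flat (Easy : FreyPackage → ℕ → Prop) (h44 : S44Statement)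
    (hH : HardCaseMinFlatFor Easy) : HardCaseMinFor Easy := by
  intro P L q hL hne hq hq2 hqp hqL hirr hmod
  by_cases hpL : P.p ∣ L
  · obtain ⟨M, hML, hpM, hMmod⟩ := h44 P hL hpL hirr hmod
    have hMpos : 0 < M := Nat.pos_of_dvd_of_pos hML hL.pos
    have hM : P.IsConductorLevel M := hL.of_dvd hML hMpos
    by_cases hqM : q ∣ M
    · have hneM : NoEasyPrimes Easy P M :=
        fun r hr hrM hr2 hrp => hne r hr (hrM.trans hML) hr2 hrp
      obtain ⟨M', hM'M, hqM', hM'mod⟩ := hH P hM hpM hneM hq hq2 hqp hqM hirr hMmod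
      exact ⟨M', hM'M.trans hML, hqM', hM'mod⟩
    · exact ⟨M, hML, hqM, hMmod⟩
  · exact hH P hL hpL hne hq hq2 hqp hqL hirr hmod

/-- **S43 from S44, Mazur's principle for the easy primes and the hard case at levels prime to
`p` without easy primes.** -/
theorem S43_of_easyHardFlat (Easy : FreyPackage → ℕ → Prop) (h44 : S44Statement)
    (hMP : MazurPrincipleFor Easy) (hH : HardCaseMinFlatFor Easy) : S43Statement :=
  S43_of_easyHard Easy hMP (hardCaseMinFor_of_flat Easy h44 hH)

/-! ## Special form: easy = `r ≢ 1 mod p` -/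

/-- `L` has only hard odd primes: every odd prime `r ≠ p` dividing `L` is `≡ 1 mod p`. -/
def OnlyHardPrimes (P : FreyPackage) (L : ℕ) : Prop :=
  ∀ r : ℕ, r.Prime → r ∣ L → r ≠ 2 → r ≠ P.p → P.p ∣ r - 1

/-- (HARD-MIN)  Level lowering at an odd prime `q ≠ p` of a conductor level `L` all of whose odd
primes `≠ p` are `≡ 1 mod p`; the conclusion is the one of frozen S43. -/
def HardCaseMinStatement : Prop :=
  ∀ (P : FreyPackage) {L q : ℕ}, P.IsConductorLevel L → OnlyHardPrimes P L →
    q.Prime → q ≠ 2 → q ≠ P.p → q ∣ L →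
    GaloisRepIsIrreducible (K := AlgebraicClosure ℚ) ℚ P.freyCurve P.p →
    P.ModularRepOfLevel L →
    ∃ M : ℕ, M ∣ L ∧ ¬ q ∣ M ∧ P.ModularRepOfLevel M

/-- `MazurPrincipleFor (r ≢ 1 mod p)` from the row statement and frozen S05. -/
theorem mazurPrincipleFor_of (hMP : MazurPrincipleStatement) (h05 : S05Statement) :
    MazurPrincipleFor (fun P r => ¬ P.p ∣ r - 1) :=
  fun P _ _ hL hr hr2 hrp hrL hirr hmod hE =>
    hMP P hL.pos hr hrp hrL (hL.sq_not_dvd hr) hirr hmod (h05 P hr hr2 hrp) hE

theorem hardCaseMinFor_of (hH : HardCaseMinStatement) :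
    HardCaseMinFor (fun P r => ¬ P.p ∣ r - 1) :=
  fun P _ _ hL hne hq hq2 hqp hqL hirr hmod =>
    hH P hL (fun r hr hrL hr2 hrp => not_not.1 (hne r hr hrL hr2 hrp)) hq hq2 hqp hqL hirr hmod

/-- **S43 from Mazur's principle, frozen S05 and the hard case at minimal conductor levels.** -/
theorem S43_of_hardMin (hMP : MazurPrincipleStatement) (h05 : S05Statement)
    (hH : HardCaseMinStatement) : S43Statement :=
  S43_of_easyHard _ (mazurPrincipleFor_of hMP h05) (hardCaseMinFor_of hH)

/-- The minimal form is implied by level lowering at general level (`Row37`), so nothing is lost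
by proving only the minimal form. -/
theorem hardCaseMin_of_levelLowering (hLL : LevelLoweringStatement) (h05 : S05Statement) :
    HardCaseMinStatement := by
  intro P L q hL _ hq hq2 hqp hqL hirr hmod
  have hsq : ¬ q ^ 2 ∣ L := hL.sq_not_dvd hq
  exact ⟨L / q, Nat.div_dvd_of_dvd hqL, not_dvd_div_of_sq_not_dvd hq hqL hsq,
    hLL P hL.pos hq hqp hqL hsq hirr hmod (h05 P hq hq2 hqp)⟩

end Fermat.Agent.Ribet.H727
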